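import Mathlib

/-!
# Group theory in `SL(2, ℤ)` for the Atkin–Lehner main lemma (helper803)

* `GammaU N` : the subgroup `Γ⁰(N)` (upper right entry divisible by `N`);
* `tU x` : the translation `[[1, x], [0, 1]]`, `tL x` its transpose;
* `comm_mem_Gamma` : `Γ(a)` and `Γ(b)` commute modulo `Γ(N)` when `N ∣ a * b`;
* `exists_mul_of_coprime` : `SL(2, ℤ) = Γ(a) Γ(b)` for coprime `a`, `b`;
* `exists_tU_mul_mem_GammaU` : `Γ⁰(N/p) ⊆ ⟨T^{N/p}⟩ Γ⁰(N) ⟨T^{N/p}⟩`;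
* `exists_mul_of_mem_GammaU` : `Γ⁰(N/p) ⊆ (Γ(m) ∩ Γ⁰(N/p)) (Γ(P) ∩ Γ⁰(N))` for `N = P m` coprime, `p ∣ P`.
-/

set_option autoImplicit false

namespace Fermat.Agent.Lib.Newform.H803

open Matrix Matrix.SpecialLinearGroup CongruenceSubgroup
open scoped MatrixGroups

/-- Upper unipotent `[[1, x], [0, 1]]`. -/
def tU (x : ℤ) : SL(2, ℤ) := ⟨!![1, x; 0, 1], by simp [Matrix.det_fin_two]⟩

/-- Lower unipotent `[[1, 0], [x, 1]]`. -/
def tL (x : ℤ) : SL(2, ℤ) := ⟨!![1, 0; x, 1], by simp [Matrix.det_fin_two]⟩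

@[simp] theorem tU_apply_00 (x : ℤ) : (tU x) 0 0 = 1 := rfl
@[simp] theorem tU_apply_01 (x : ℤ) : (tU x) 0 1 = x := rfl
@[simp] theorem tU_apply_10 (x : ℤ) : (tU x) 1 0 = 0 := rfl
@[simp] theorem tU_apply_11 (x : ℤ) : (tU x) 1 1 = 1 := rfl
@[simp] theorem tL_apply_00 (x : ℤ) : (tL x) 0 0 = 1 := rfl
@[simp] theorem tL_apply_01 (x : ℤ) : (tL x) 0 1 = 0 := rfl
@[simp] theorem tL_apply_10 (x : ℤ) : (tL x) 1 0 = x := rfl
@[simp] theorem tL_apply_11 (x : ℤ) : (tL x) 1 1 = 1 := rfl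

theorem sl2_ext {A B : SL(2, ℤ)} (h00 : A 0 0 = B 0 0) (h01 : A 0 1 = B 0 1)
    (h10 : A 1 0 = B 1 0) (h11 : A 1 1 = B 1 1) : A = B := by
  ext i j
  fin_cases i <;> fin_cases j <;> assumption

theorem mul_apply_00 (A B : SL(2, ℤ)) : (A * B) 0 0 = A 0 0 * B 0 0 + A 0 1 * B 1 0 := by
  simp [Matrix.mul_apply, Fin.sum_univ_two]
theorem mul_apply_01 (A B : SL(2, ℤ)) : (A * B) 0 1 = A 0 0 * B 0 1 + A 0 1 * B 1 1 := by
  simp [Matrix.mul_apply, Fin.sum_univ_two]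
theorem mul_apply_10 (A B : SL(2, ℤ)) : (A * B) 1 0 = A 1 0 * B 0 0 + A 1 1 * B 1 0 := by
  simp [Matrix.mul_apply, Fin.sum_univ_two]
theorem mul_apply_11 (A B : SL(2, ℤ)) : (A * B) 1 1 = A 1 0 * B 0 1 + A 1 1 * B 1 1 := by
  simp [Matrix.mul_apply, Fin.sum_univ_two]

theorem inv_apply_00 (A : SL(2, ℤ)) : (A⁻¹) 0 0 = A 1 1 := by
  simp [Matrix.SpecialLinearGroup.SL2_inv_expl]
theorem inv_apply_01 (A : SL(2, ℤ)) : (A⁻¹) 0 1 = - A 0 1 := by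
  simp [Matrix.SpecialLinearGroup.SL2_inv_expl]
theorem inv_apply_10 (A : SL(2, ℤ)) : (A⁻¹) 1 0 = - A 1 0 := by
  simp [Matrix.SpecialLinearGroup.SL2_inv_expl]
theorem inv_apply_11 (A : SL(2, ℤ)) : (A⁻¹) 1 1 = A 0 0 := by
  simp [Matrix.SpecialLinearGroup.SL2_inv_expl]

theorem det_eq_one' (A : SL(2, ℤ)) : A 0 0 * A 1 1 - A 0 1 * A 1 0 = 1 := by
  have h := A.2
  rwa [Matrix.det_fin_two] at h

theorem tU_add (x y : ℤ) : tU (x + y) = tU x * tU y := by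
  apply sl2_ext <;> simp [mul_apply_00, mul_apply_01, mul_apply_10, mul_apply_11, add_comm]

theorem tU_zero : tU 0 = 1 := by
  apply sl2_ext <;> simp

theorem tU_neg (x : ℤ) : tU (-x) = (tU x)⁻¹ := by
  apply sl2_ext <;> simp [inv_apply_00, inv_apply_01, inv_apply_10, inv_apply_11]

theorem tL_add (x y : ℤ) : tL (x + y) = tL x * tL y := by
  apply sl2_ext <;> simp [mul_apply_00, mul_apply_01, mul_apply_10, mul_apply_11]

theorem tU_eq_T_zpow (x : ℤ) : tU x = ModularGroup.T ^ x := by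
  apply Subtype.ext
  rw [ModularGroup.coe_T_zpow]
  rfl

/-- `Γ⁰(N)`: the subgroup of matrices with upper right entry divisible by `N`. -/
def GammaU (N : ℕ) : Subgroup SL(2, ℤ) where
  carrier := { g | (N : ℤ) ∣ g 0 1 }
  one_mem' := by simp
  mul_mem' {a} {b} ha hb := by
    simp only [Set.mem_ofPred_eq] at *
    rw [mul_apply_01]
    exact dvd_add (Dvd.dvd.mul_left hb _) (Dvd.dvd.mul_right ha _)
  inv_mem' {a} ha := by
    simp only [Set.mem_ofPred_eq] at *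
    rw [inv_apply_01]
    exact (dvd_neg).mpr ha

@[simp] theorem mem_GammaU {N : ℕ} {g : SL(2, ℤ)} : g ∈ GammaU N ↔ (N : ℤ) ∣ g 0 1 := Iff.rfl

theorem GammaU_mono {M N : ℕ} (h : M ∣ N) : GammaU N ≤ GammaU M := by
  intro g hg
  rw [mem_GammaU] at *
  exact dvd_trans (Int.natCast_dvd_natCast.mpr h) hg

theorem mem_Gamma_iff_dvd {N : ℕ} {g : SL(2, ℤ)} :
    g ∈ Gamma N ↔ (N : ℤ) ∣ g 0 0 - 1 ∧ (N : ℤ) ∣ g 0 1 ∧ (N : ℤ) ∣ g 1 0 ∧ (N : ℤ) ∣ g 1 1 - 1 := by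
  rw [Gamma_mem]
  simp only [ZMod.intCast_zmod_eq_zero_iff_dvd]
  have h1 : ∀ x : ℤ, ((x : ZMod N) = 1 ↔ (N : ℤ) ∣ x - 1) := by
    intro x
    rw [← ZMod.intCast_zmod_eq_zero_iff_dvd]
    push_cast
    rw [sub_eq_zero]
  rw [h1, h1]

theorem Gamma_le_GammaU (N : ℕ) : Gamma N ≤ GammaU N := by
  intro g hg
  rw [mem_Gamma_iff_dvd] at hg
  exact hg.2.1

theorem Gamma_mono {M N : ℕ} (h : M ∣ N) : Gamma N ≤ Gamma M := by
  intro g hg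
  rw [mem_Gamma_iff_dvd] at *
  have h' : (M : ℤ) ∣ (N : ℤ) := Int.natCast_dvd_natCast.mpr h
  exact ⟨dvd_trans h' hg.1, dvd_trans h' hg.2.1, dvd_trans h' hg.2.2.1, dvd_trans h' hg.2.2.2⟩

theorem tU_mem_Gamma {N : ℕ} {x : ℤ} (h : (N : ℤ) ∣ x) : tU x ∈ Gamma N := by
  rw [mem_Gamma_iff_dvd]
  simp [h]

theorem tL_mem_Gamma {N : ℕ} {x : ℤ} (h : (N : ℤ) ∣ x) : tL x ∈ Gamma N := by
  rw [mem_Gamma_iff_dvd]
  simp [h]

theorem tU_mem_GammaU {N : ℕ} {x : ℤ} (h : (N : ℤ) ∣ x) : tU x ∈ GammaU N := by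
  rw [mem_GammaU]; simpa using h

/-- `g * h⁻¹ ∈ Γ(N)` iff `g` and `h` are entrywise congruent modulo `N`. -/
theorem mul_inv_mem_Gamma_iff {N : ℕ} {g h : SL(2, ℤ)} :
    g * h⁻¹ ∈ Gamma N ↔ (N : ℤ) ∣ g 0 0 - h 0 0 ∧ (N : ℤ) ∣ g 0 1 - h 0 1 ∧
      (N : ℤ) ∣ g 1 0 - h 1 0 ∧ (N : ℤ) ∣ g 1 1 - h 1 1 := by
  have key : g * h⁻¹ ∈ Gamma N ↔
      (Matrix.SpecialLinearGroup.map (Int.castRingHom (ZMod N))) g =
      (Matrix.SpecialLinearGroup.map (Int.castRingHom (ZMod N))) h := by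
    rw [Gamma_mem', map_mul, map_inv, mul_inv_eq_one]
  rw [key]
  constructor
  · intro H
    have e : ∀ i j : Fin 2, ((g i j : ℤ) : ZMod N) = ((h i j : ℤ) : ZMod N) := by
      intro i j
      have := congrArg (fun A : SL(2, ZMod N) => A i j) H
      simpa using this
    have d : ∀ i j : Fin 2, (N : ℤ) ∣ g i j - h i j := by
      intro i j
      rw [← ZMod.intCast_zmod_eq_zero_iff_dvd]
      push_cast
      rw [sub_eq_zero]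
      exact e i j
    exact ⟨d 0 0, d 0 1, d 1 0, d 1 1⟩
  · rintro ⟨h00, h01, h10, h11⟩
    have e : ∀ a b : ℤ, (N : ℤ) ∣ a - b → ((a : ℤ) : ZMod N) = ((b : ℤ) : ZMod N) := by
      intro a b hab
      rw [← sub_eq_zero, ← Int.cast_sub, ZMod.intCast_zmod_eq_zero_iff_dvd]
      exact hab
    ext i j
    fin_cases i <;> fin_cases j
    · simpa using e _ _ h00
    · simpa using e _ _ h01
    · simpa using e _ _ h10
    · simpa using e _ _ h11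

/-- (G1) `Γ(a)` and `Γ(b)` commute modulo `Γ(N)` when `N ∣ a * b`. -/
theorem comm_mem_Gamma {N a b : ℕ} (hN : N ∣ a * b) {g h : SL(2, ℤ)}
    (hg : g ∈ Gamma a) (hh : h ∈ Gamma b) : (g * h) * (h * g)⁻¹ ∈ Gamma N := by
  rw [mul_inv_mem_Gamma_iff]
  rw [mem_Gamma_iff_dvd] at hg hh
  obtain ⟨⟨x, hx⟩, ⟨y, hy⟩, ⟨z, hz⟩, ⟨w, hw⟩⟩ := hg
  obtain ⟨⟨x', hx'⟩, ⟨y', hy'⟩, ⟨z', hz'⟩, ⟨w', hw'⟩⟩ := hh
  have hN' : (N : ℤ) ∣ (a : ℤ) * (b : ℤ) := by exact_mod_cast Int.natCast_dvd_natCast.mpr hN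
  have e00 : g 0 0 = 1 + a * x := by linarith
  have e11 : g 1 1 = 1 + a * w := by linarith
  have e00' : h 0 0 = 1 + b * x' := by linarith
  have e11' : h 1 1 = 1 + b * w' := by linarith
  simp only [mul_apply_00, mul_apply_01, mul_apply_10, mul_apply_11]
  rw [e00, e11, e00', e11', hy, hz, hy', hz']
  refine ⟨?_, ?_, ?_, ?_⟩
  · refine dvd_trans hN' ⟨y * z' - y' * z, by ring⟩
  · refine dvd_trans hN' ⟨x * y' + y * w' - x' * y - y' * w, by ring⟩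
  · refine dvd_trans hN' ⟨z * x' + w * z' - z' * x - w' * z, by ring⟩
  · refine dvd_trans hN' ⟨z * y' - z' * y, by ring⟩

/-- (Fact) `SL(2, ℤ) = Γ(a) ⊔ Γ(b)` for coprime `a`, `b`. -/
theorem Gamma_sup_Gamma_eq_top {a b : ℕ} (hab : Nat.Coprime a b) : Gamma a ⊔ Gamma b = ⊤ := by
  -- Bezout: every integer is `a x + b y`
  have bez : ∀ n : ℤ, ∃ x y : ℤ, n = a * x + b * y := by
    intro n
    have h : IsCoprime (a : ℤ) (b : ℤ) := Nat.isCoprime_iff_coprime.mpr hab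
    obtain ⟨u, v, huv⟩ := h
    exact ⟨n * u, n * v, by linear_combination (-n) * huv⟩
  have hU : ∀ n : ℤ, tU n ∈ Gamma a ⊔ Gamma b := by
    intro n
    obtain ⟨x, y, rfl⟩ := bez n
    rw [tU_add]
    exact Subgroup.mul_mem _
      (Subgroup.mem_sup_left (tU_mem_Gamma (Dvd.intro _ rfl)))
      (Subgroup.mem_sup_right (tU_mem_Gamma (Dvd.intro _ rfl)))
  have hL : ∀ n : ℤ, tL n ∈ Gamma a ⊔ Gamma b := by
    intro n
    obtain ⟨x, y, rfl⟩ := bez n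
    rw [tL_add]
    exact Subgroup.mul_mem _
      (Subgroup.mem_sup_left (tL_mem_Gamma (Dvd.intro _ rfl)))
      (Subgroup.mem_sup_right (tL_mem_Gamma (Dvd.intro _ rfl)))
  have hT : ModularGroup.T ∈ Gamma a ⊔ Gamma b := by
    have := hU 1
    rwa [tU_eq_T_zpow, zpow_one] at this
  have hS : ModularGroup.S ∈ Gamma a ⊔ Gamma b := by
    have e : ModularGroup.S = tU (-1) * tL 1 * tU (-1) := by
      apply sl2_ext <;>
        simp [mul_apply_00, mul_apply_01, mul_apply_10, mul_apply_11, ModularGroup.S]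
    rw [e]
    exact Subgroup.mul_mem _ (Subgroup.mul_mem _ (hU _) (hL _)) (hU _)
  rw [eq_top_iff, ← SpecialLinearGroup.SL2Z_generators, Subgroup.closure_le]
  rintro g (rfl | rfl)
  · exact hS
  · exact hT

/-- (Fact), factorisation form. -/
theorem exists_mul_of_coprime {a b : ℕ} (hab : Nat.Coprime a b) (g : SL(2, ℤ)) :
    ∃ g₁ ∈ Gamma a, ∃ g₂ ∈ Gamma b, g = g₁ * g₂ := by
  have hg : g ∈ Gamma a ⊔ Gamma b := by rw [Gamma_sup_Gamma_eq_top hab]; trivial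
  have hn : (Gamma b).Normal := Gamma_normal b
  rw [Subgroup.mem_sup_of_normal_right] at hg
  obtain ⟨y, hy, z, hz, rfl⟩ := hg
  exact ⟨y, hy, z, hz, rfl⟩

/-- (G2), first case: if `p ∤ g 1 1` a left translation brings `g ∈ Γ⁰(d)` into `Γ⁰(p d)`. -/
theorem exists_tU_mul_mem_GammaU_aux {p d : ℕ} (hp : p.Prime) {g : SL(2, ℤ)}
    (hg : g ∈ GammaU d) (h11 : ¬ (p : ℤ) ∣ g 1 1) :
    ∃ i : ℤ, tU (i * d) * g ∈ GammaU (p * d) := by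
  rw [mem_GammaU] at hg
  obtain ⟨b₀, hb₀⟩ := hg
  have hcop : IsCoprime (g 1 1) (p : ℤ) :=
    ((Nat.prime_iff_prime_int.mp hp).coprime_iff_not_dvd.mpr h11).symm
  obtain ⟨u, v, huv⟩ := hcop
  refine ⟨-b₀ * u, ?_⟩
  rw [mem_GammaU, mul_apply_01]
  simp only [tU_apply_00, tU_apply_01, one_mul]
  rw [hb₀]
  refine ⟨b₀ * v, ?_⟩
  push_cast
  linear_combination (-(d : ℤ) * b₀) * huv

/-- (G2) `Γ⁰(N/p) ⊆ ⟨T^{N/p}⟩ Γ⁰(N) ⟨T^{N/p}⟩`. -/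
theorem exists_tU_mul_mem_GammaU {p d : ℕ} (hp : p.Prime) {g : SL(2, ℤ)}
    (hg : g ∈ GammaU d) :
    ∃ i j : ℤ, tU (i * d) * g * tU (j * d) ∈ GammaU (p * d) := by
  by_cases h11 : (p : ℤ) ∣ g 1 1
  · -- replace `g` by `g * tU d`
    have hg' : g * tU (1 * d) ∈ GammaU d :=
      Subgroup.mul_mem _ hg (tU_mem_GammaU (Dvd.intro_left _ rfl))
    have hdet := det_eq_one' g
    have hpP : Prime (p : ℤ) := Nat.prime_iff_prime_int.mp hp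
    have hb : ¬ (p : ℤ) ∣ g 0 1 * g 1 0 := by
      intro hb
      have : (p : ℤ) ∣ 1 := by
        rw [← hdet]
        exact dvd_sub (Dvd.dvd.mul_left h11 _) hb
      exact hpP.not_dvd_one this
    have hc : ¬ (p : ℤ) ∣ g 1 0 := fun h => hb (Dvd.dvd.mul_left h _)
    have hb' : ¬ (p : ℤ) ∣ g 0 1 := fun h => hb (Dvd.dvd.mul_right h _)
    have hd : ¬ (p : ℤ) ∣ (d : ℤ) := by
      intro hd
      rw [mem_GammaU] at hg
      exact hb' (dvd_trans hd hg)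
    have h11' : ¬ (p : ℤ) ∣ (g * tU (1 * d)) 1 1 := by
      rw [mul_apply_11]
      simp only [tU_apply_01, tU_apply_11, one_mul, mul_one]
      intro h
      have h2 : (p : ℤ) ∣ g 1 0 * d := by
        have := dvd_sub h h11
        simpa using this
      rcases hpP.dvd_or_dvd h2 with h3 | h3
      · exact hc h3
      · exact hd h3
    obtain ⟨i, hi⟩ := exists_tU_mul_mem_GammaU_aux hp hg' h11'
    exact ⟨i, 1, by rwa [← mul_assoc] at hi⟩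
  · obtain ⟨i, hi⟩ := exists_tU_mul_mem_GammaU_aux hp hg h11
    refine ⟨i, 0, ?_⟩
    rw [zero_mul, tU_zero, mul_one]
    exact hi

/-- (G3) local factorisation of `Γ⁰(D)`, `m ∣ D ∣ P m`, `P` and `m` coprime. -/
theorem exists_mul_of_mem_GammaU {P m D : ℕ} (hPm : Nat.Coprime P m) (hmD : m ∣ D)
    (hDN : D ∣ P * m) {g : SL(2, ℤ)} (hg : g ∈ GammaU D) :
    ∃ g₁ ∈ Gamma m ⊓ GammaU D, ∃ g₂ ∈ Gamma P ⊓ GammaU (P * m), g = g₁ * g₂ := by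
  obtain ⟨g₁, hg₁, g₂, hg₂, rfl⟩ := exists_mul_of_coprime hPm.symm g
  have h₁ := mem_Gamma_iff_dvd.mp hg₁
  have h₂ := mem_Gamma_iff_dvd.mp hg₂
  rw [mem_GammaU, mul_apply_01] at hg
  have hmD' : (m : ℤ) ∣ (D : ℤ) := Int.natCast_dvd_natCast.mpr hmD
  have hDN' : (D : ℤ) ∣ ((P * m : ℕ) : ℤ) := Int.natCast_dvd_natCast.mpr hDN
  -- `m ∣ (g₂) 0 1`
  have hm2 : (m : ℤ) ∣ g₂ 0 1 := by
    have h3 : (m : ℤ) ∣ g₁ 0 0 * g₂ 0 1 + g₁ 0 1 * g₂ 1 1 := dvd_trans hmD' hg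
    have h4 : (m : ℤ) ∣ g₁ 0 0 * g₂ 0 1 := by
      have := dvd_sub h3 (Dvd.dvd.mul_right h₁.2.1 (g₂ 1 1))
      simpa using this
    have h5 : (m : ℤ) ∣ (g₁ 0 0 - 1) * g₂ 0 1 := Dvd.dvd.mul_right h₁.1 _
    have := dvd_sub h4 h5
    have e : g₁ 0 0 * g₂ 0 1 - (g₁ 0 0 - 1) * g₂ 0 1 = g₂ 0 1 := by ring
    rwa [e] at this
  have hN2 : ((P * m : ℕ) : ℤ) ∣ g₂ 0 1 := by
    push_cast
    exact IsCoprime.mul_dvd (Nat.isCoprime_iff_coprime.mpr hPm) h₂.2.1 hm2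
  have hD2 : (D : ℤ) ∣ g₂ 0 1 := dvd_trans hDN' hN2
  refine ⟨g₁, ⟨hg₁, ?_⟩, g₂, ⟨hg₂, hN2⟩, rfl⟩
  change (D : ℤ) ∣ g₁ 0 1
  -- `g₁ 0 1 = (g₁ 0 0 g₂ 0 1 + g₁ 0 1 g₂ 1 1) g₂ 0 0 - ... ` use determinant of `g₂`
  have hdet := det_eq_one' g₂
  have e : g₁ 0 1 = (g₁ 0 0 * g₂ 0 1 + g₁ 0 1 * g₂ 1 1) * g₂ 0 0
      - (g₁ 0 0 * g₂ 0 0 + g₁ 0 1 * g₂ 1 0) * g₂ 0 1 := by
    linear_combination (-(g₁ 0 1)) * hdet
  rw [e]
  exact dvd_sub (Dvd.dvd.mul_right hg _) (Dvd.dvd.mul_left hD2 _)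

end Fermat.Agent.Lib.Newform.H803
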