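import Mathlib
import Fermat.Agent.Lib.Newform.H803.Group

/-!
# Averaging operators on `Γ(N)`-invariant functions (helper803)

* `SlInv k Γ F` : `F` is invariant under the weight `k` slash action of `Γ ≤ SL(2, ℤ)`;
* `avg k N J F` : average of `F ∣[k] γ` over `γ ∈ J` modulo `Γ(N)`;
* `avgT k x p F` : `p⁻¹ ∑_{j < p} F ∣[k] T^{j x}`.
-/

set_option autoImplicit false

namespace Fermat.Agent.Lib.Newform.H803

open Matrix Matrix.SpecialLinearGroup CongruenceSubgroup UpperHalfPlane ModularForm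
open scoped MatrixGroups ModularForm

variable {k : ℤ}

/-- `F` is invariant under the weight-`k` slash action of `Γ`. -/
def SlInv (k : ℤ) (Γ : Subgroup SL(2, ℤ)) (F : ℍ → ℂ) : Prop := ∀ γ ∈ Γ, F ∣[k] γ = F

theorem SlInv.mono {Γ Γ' : Subgroup SL(2, ℤ)} (h : Γ ≤ Γ') {F : ℍ → ℂ} (hF : SlInv k Γ' F) :
    SlInv k Γ F := fun γ hγ => hF γ (h hγ)

theorem SlInv.zero (Γ : Subgroup SL(2, ℤ)) : SlInv k Γ (0 : ℍ → ℂ) :=
  fun _ _ => SlashAction.zero_slash _ _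

theorem SlInv.add {Γ : Subgroup SL(2, ℤ)} {F G : ℍ → ℂ} (hF : SlInv k Γ F) (hG : SlInv k Γ G) :
    SlInv k Γ (F + G) := fun γ hγ => by rw [SlashAction.add_slash, hF γ hγ, hG γ hγ]

theorem SlInv.smul {Γ : Subgroup SL(2, ℤ)} {F : ℍ → ℂ} (c : ℂ) (hF : SlInv k Γ F) :
    SlInv k Γ (c • F) := fun γ hγ => by rw [ModularForm.SL_smul_slash, hF γ hγ]

theorem SlInv.neg {Γ : Subgroup SL(2, ℤ)} {F : ℍ → ℂ} (hF : SlInv k Γ F) :
    SlInv k Γ (-F) := fun γ hγ => by rw [SlashAction.neg_slash, hF γ hγ]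

theorem SlInv.sub {Γ : Subgroup SL(2, ℤ)} {F G : ℍ → ℂ} (hF : SlInv k Γ F) (hG : SlInv k Γ G) :
    SlInv k Γ (F - G) := by
  rw [sub_eq_add_neg]; exact hF.add hG.neg

theorem SlInv.sum {Γ : Subgroup SL(2, ℤ)} {ι : Type*} (s : Finset ι) {F : ι → ℍ → ℂ}
    (hF : ∀ i ∈ s, SlInv k Γ (F i)) : SlInv k Γ (∑ i ∈ s, F i) := by
  intro γ hγ
  rw [SlashAction.sum_slash]
  exact Finset.sum_congr rfl fun i hi => hF i hi γ hγ

theorem sub_slash (F G : ℍ → ℂ) (γ : SL(2, ℤ)) : (F - G) ∣[k] γ = F ∣[k] γ - G ∣[k] γ := by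
  rw [sub_eq_add_neg, SlashAction.add_slash, SlashAction.neg_slash, ← sub_eq_add_neg]

/-- For a `Γ(N)`-invariant function, `F ∣ g` only depends on `g` modulo `Γ(N)`. -/
theorem slash_congr {N : ℕ} {F : ℍ → ℂ} (hF : SlInv k (Gamma N) F) {g h : SL(2, ℤ)}
    (hgh : g * h⁻¹ ∈ Gamma N) : F ∣[k] g = F ∣[k] h := by
  have e : g = (g * h⁻¹) * h := by group
  rw [e, SlashAction.slash_mul, hF _ hgh]

theorem SlInv.slash {N : ℕ} {F : ℍ → ℂ} (hF : SlInv k (Gamma N) F) (g : SL(2, ℤ)) :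
    SlInv k (Gamma N) (F ∣[k] g) := by
  intro γ hγ
  rw [← SlashAction.slash_mul]
  apply slash_congr hF
  have e : g * γ * g⁻¹ ∈ Gamma N := (Gamma_normal N).conj_mem γ hγ g
  exact e

/-- Commutation of the slash operators of two elements commuting modulo `Γ(N)`. -/
theorem slash_comm_of_mem {N : ℕ} {F : ℍ → ℂ} (hF : SlInv k (Gamma N) F) {g h : SL(2, ℤ)}
    (hgh : (g * h) * (h * g)⁻¹ ∈ Gamma N) : (F ∣[k] g) ∣[k] h = (F ∣[k] h) ∣[k] g := by
  rw [← SlashAction.slash_mul, ← SlashAction.slash_mul]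
  exact slash_congr hF hgh

theorem slash_comm {N a b : ℕ} (hN : N ∣ a * b) {F : ℍ → ℂ} (hF : SlInv k (Gamma N) F)
    {g h : SL(2, ℤ)} (hg : g ∈ Gamma a) (hh : h ∈ Gamma b) :
    (F ∣[k] g) ∣[k] h = (F ∣[k] h) ∣[k] g :=
  slash_comm_of_mem hF (comm_mem_Gamma hN hg hh)

/-! ### The averaging operator over a subgroup modulo `Γ(N)` -/

/-- Reduction modulo `N`. -/
noncomputable abbrev redN (N : ℕ) : SL(2, ℤ) →* SL(2, ZMod N) :=
  Matrix.SpecialLinearGroup.map (Int.castRingHom (ZMod N))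

theorem mem_Gamma_iff_redN {N : ℕ} {g : SL(2, ℤ)} : g ∈ Gamma N ↔ redN N g = 1 := Iff.rfl

theorem mul_inv_mem_Gamma_of_redN_eq {N : ℕ} {g h : SL(2, ℤ)} (e : redN N g = redN N h) :
    g * h⁻¹ ∈ Gamma N := by
  rw [mem_Gamma_iff_redN, map_mul, map_inv, e, mul_inv_cancel]

/-- A chosen lift in `J` of an element of the image of `J` modulo `N`. -/
noncomputable def liftJ (N : ℕ) (J : Subgroup SL(2, ℤ)) (x : J.map (redN N)) : SL(2, ℤ) :=
  (Subgroup.mem_map.mp x.2).choose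

theorem liftJ_mem (N : ℕ) (J : Subgroup SL(2, ℤ)) (x : J.map (redN N)) : liftJ N J x ∈ J :=
  (Subgroup.mem_map.mp x.2).choose_spec.1

theorem redN_liftJ (N : ℕ) (J : Subgroup SL(2, ℤ)) (x : J.map (redN N)) :
    redN N (liftJ N J x) = x.1 :=
  (Subgroup.mem_map.mp x.2).choose_spec.2

/-- The averaging operator over `J` modulo `Γ(N)`. -/
noncomputable def avg (k : ℤ) (N : ℕ) [NeZero N] (J : Subgroup SL(2, ℤ)) (F : ℍ → ℂ) : ℍ → ℂ :=
  letI := Fintype.ofFinite (J.map (redN N))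
  ((Nat.card (J.map (redN N)) : ℂ)⁻¹) • ∑ x : J.map (redN N), F ∣[k] liftJ N J x

theorem avg_def (N : ℕ) [NeZero N] (J : Subgroup SL(2, ℤ)) (F : ℍ → ℂ) :
    avg k N J F = ((Nat.card (J.map (redN N)) : ℂ)⁻¹) •
      @Finset.sum _ _ _ (@Finset.univ _ (Fintype.ofFinite (J.map (redN N))))
        (fun x : J.map (redN N) => F ∣[k] liftJ N J x) := rfl

theorem avg_add (N : ℕ) [NeZero N] (J : Subgroup SL(2, ℤ)) (F G : ℍ → ℂ) :
    avg k N J (F + G) = avg k N J F + avg k N J G := by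
  simp only [avg_def, SlashAction.add_slash, Finset.sum_add_distrib, smul_add]

theorem avg_smul (N : ℕ) [NeZero N] (J : Subgroup SL(2, ℤ)) (c : ℂ) (F : ℍ → ℂ) :
    avg k N J (c • F) = c • avg k N J F := by
  simp only [avg_def, ModularForm.SL_smul_slash, ← Finset.smul_sum]
  rw [smul_comm]

theorem avg_neg (N : ℕ) [NeZero N] (J : Subgroup SL(2, ℤ)) (F : ℍ → ℂ) :
    avg k N J (-F) = - avg k N J F := by
  simp only [avg_def, SlashAction.neg_slash, Finset.sum_neg_distrib, smul_neg]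

theorem avg_sub (N : ℕ) [NeZero N] (J : Subgroup SL(2, ℤ)) (F G : ℍ → ℂ) :
    avg k N J (F - G) = avg k N J F - avg k N J G := by
  rw [sub_eq_add_neg, avg_add, avg_neg, ← sub_eq_add_neg]

theorem avg_zero (N : ℕ) [NeZero N] (J : Subgroup SL(2, ℤ)) :
    avg k N J (0 : ℍ → ℂ) = 0 := by
  simp only [avg_def, SlashAction.zero_slash, Finset.sum_const_zero, smul_zero]

/-- (i) the average is `J`-invariant. -/
theorem avg_slash_of_mem {N : ℕ} [NeZero N] {J : Subgroup SL(2, ℤ)} {F : ℍ → ℂ}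
    (hF : SlInv k (Gamma N) F) {γ : SL(2, ℤ)} (hγ : γ ∈ J) :
    (avg k N J F) ∣[k] γ = avg k N J F := by
  let _ := Fintype.ofFinite (J.map (redN N))
  rw [avg_def, ModularForm.SL_smul_slash, SlashAction.sum_slash]
  congr 1
  let r : J.map (redN N) := ⟨redN N γ, Subgroup.mem_map_of_mem _ hγ⟩
  have key : ∀ x : J.map (redN N), (F ∣[k] liftJ N J x) ∣[k] γ = F ∣[k] liftJ N J (x * r) := by
    intro x
    rw [← SlashAction.slash_mul]
    apply slash_congr hF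
    apply mul_inv_mem_Gamma_of_redN_eq
    rw [map_mul, redN_liftJ, redN_liftJ]
    rfl
  simp only [key]
  exact Equiv.sum_comp (Equiv.mulRight r) (fun x => F ∣[k] liftJ N J x)

theorem avg_slInv {N : ℕ} [NeZero N] {J : Subgroup SL(2, ℤ)} {F : ℍ → ℂ}
    (hF : SlInv k (Gamma N) F) : SlInv k J (avg k N J F) :=
  fun _ hγ => avg_slash_of_mem hF hγ

/-- (ii) the average of a `J`-invariant function is the function. -/
theorem avg_of_slInv {N : ℕ} [NeZero N] {J : Subgroup SL(2, ℤ)} {F : ℍ → ℂ}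
    (hF : SlInv k J F) : avg k N J F = F := by
  let _ := Fintype.ofFinite (J.map (redN N))
  rw [avg_def]
  have key : ∀ x : J.map (redN N), F ∣[k] liftJ N J x = F := fun x => hF _ (liftJ_mem N J x)
  simp only [key, Finset.sum_const, Finset.card_univ]
  rw [← Nat.card_eq_fintype_card, ← Nat.cast_smul_eq_nsmul ℂ, smul_smul, inv_mul_cancel₀, one_smul]
  have : Nat.card (J.map (redN N)) ≠ 0 := Nat.card_pos.ne'
  exact_mod_cast this

/-- (iii) the average commutes with the slash by an element commuting with `J` mod `Γ(N)`. -/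
theorem avg_slash_comm {N : ℕ} [NeZero N] {J : Subgroup SL(2, ℤ)} {F : ℍ → ℂ}
    (hF : SlInv k (Gamma N) F) {g : SL(2, ℤ)}
    (hg : ∀ γ ∈ J, (γ * g) * (g * γ)⁻¹ ∈ Gamma N) :
    (avg k N J F) ∣[k] g = avg k N J (F ∣[k] g) := by
  let _ := Fintype.ofFinite (J.map (redN N))
  rw [avg_def, avg_def, ModularForm.SL_smul_slash, SlashAction.sum_slash]
  congr 1
  refine Finset.sum_congr rfl fun x _ => ?_
  exact slash_comm_of_mem hF (hg _ (liftJ_mem N J x))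

/-- (iv) stability of slash-stable submodules. -/
theorem avg_mem {N : ℕ} [NeZero N] (J : Subgroup SL(2, ℤ)) {𝒮 : Submodule ℂ (ℍ → ℂ)}
    (h𝒮 : ∀ F ∈ 𝒮, ∀ γ : SL(2, ℤ), F ∣[k] γ ∈ 𝒮) {F : ℍ → ℂ} (hF : F ∈ 𝒮) :
    avg k N J F ∈ 𝒮 := by
  let _ := Fintype.ofFinite (J.map (redN N))
  rw [avg_def]
  exact 𝒮.smul_mem _ (𝒮.sum_mem fun x _ => h𝒮 F hF _)

/-! ### The translation averaging operator -/

/-- `avgT k x p F = p⁻¹ ∑_{j < p} F ∣[k] T^{j x}`. -/
noncomputable def avgT (k : ℤ) (x : ℤ) (p : ℕ) (F : ℍ → ℂ) : ℍ → ℂ :=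
  ((p : ℂ)⁻¹) • ∑ j ∈ Finset.range p, F ∣[k] tU (j * x)

theorem avgT_add (x : ℤ) (p : ℕ) (F G : ℍ → ℂ) :
    avgT k x p (F + G) = avgT k x p F + avgT k x p G := by
  simp only [avgT, SlashAction.add_slash, Finset.sum_add_distrib, smul_add]

theorem avgT_neg (x : ℤ) (p : ℕ) (F : ℍ → ℂ) :
    avgT k x p (-F) = - avgT k x p F := by
  simp only [avgT, SlashAction.neg_slash, Finset.sum_neg_distrib, smul_neg]

theorem avgT_sub (x : ℤ) (p : ℕ) (F G : ℍ → ℂ) :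
    avgT k x p (F - G) = avgT k x p F - avgT k x p G := by
  rw [sub_eq_add_neg, avgT_add, avgT_neg, ← sub_eq_add_neg]

theorem avgT_smul (x : ℤ) (p : ℕ) (c : ℂ) (F : ℍ → ℂ) :
    avgT k x p (c • F) = c • avgT k x p F := by
  simp only [avgT, ModularForm.SL_smul_slash, ← Finset.smul_sum]
  rw [smul_comm]

theorem avgT_zero (x : ℤ) (p : ℕ) : avgT k x p (0 : ℍ → ℂ) = 0 := by
  simp only [avgT, SlashAction.zero_slash, Finset.sum_const_zero, smul_zero]

theorem avgT_mem (x : ℤ) (p : ℕ) {𝒮 : Submodule ℂ (ℍ → ℂ)}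
    (h𝒮 : ∀ F ∈ 𝒮, ∀ γ : SL(2, ℤ), F ∣[k] γ ∈ 𝒮) {F : ℍ → ℂ} (hF : F ∈ 𝒮) :
    avgT k x p F ∈ 𝒮 :=
  𝒮.smul_mem _ (𝒮.sum_mem fun _ _ => h𝒮 F hF _)

theorem avgT_slInv_Gamma {N : ℕ} (x : ℤ) (p : ℕ) {F : ℍ → ℂ} (hF : SlInv k (Gamma N) F) :
    SlInv k (Gamma N) (avgT k x p F) :=
  SlInv.smul _ (SlInv.sum _ fun _ _ => hF.slash _)

/-- `avgT` commutes with the slash by `g` if `g` commutes with the translations mod `Γ(N)`. -/
theorem avgT_slash_comm {N : ℕ} {x : ℤ} {p : ℕ} {F : ℍ → ℂ} (hF : SlInv k (Gamma N) F)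
    {g : SL(2, ℤ)} (hg : ∀ j : ℤ, (tU (j * x) * g) * (g * tU (j * x))⁻¹ ∈ Gamma N) :
    (avgT k x p F) ∣[k] g = avgT k x p (F ∣[k] g) := by
  rw [avgT, avgT, ModularForm.SL_smul_slash, SlashAction.sum_slash]
  congr 1
  refine Finset.sum_congr rfl fun j _ => ?_
  exact slash_comm_of_mem hF (hg j)

theorem slash_tU_mul {x : ℤ} {F : ℍ → ℂ} (h : F ∣[k] tU x = F) (j : ℤ) :
    F ∣[k] tU (j * x) = F := by
  induction j using Int.induction_on with
  | zero => rw [zero_mul, tU_zero, SlashAction.slash_one]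
  | succ i ih =>
    rw [add_mul, one_mul, tU_add, SlashAction.slash_mul, ih, h]
  | pred i ih =>
    have e : tU ((-(i : ℤ)) * x) = tU ((-(i : ℤ) - 1) * x) * tU x := by
      rw [← tU_add]; congr 1; ring
    rw [e, SlashAction.slash_mul] at ih
    have h' : F ∣[k] (tU x)⁻¹ = F := by
      conv_lhs => rw [← h]
      rw [← SlashAction.slash_mul, mul_inv_cancel, SlashAction.slash_one]
    calc F ∣[k] tU ((-(i : ℤ) - 1) * x)
        = ((F ∣[k] tU ((-(i : ℤ) - 1) * x)) ∣[k] tU x) ∣[k] (tU x)⁻¹ := by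
          rw [← SlashAction.slash_mul, mul_inv_cancel, SlashAction.slash_one]
      _ = F := by rw [ih, h']

/-- (d) `avgT` fixes functions invariant under the translation. -/
theorem avgT_of_slash_eq {x : ℤ} {p : ℕ} (hp : p ≠ 0) {F : ℍ → ℂ} (h : F ∣[k] tU x = F) :
    avgT k x p F = F := by
  rw [avgT]
  have key : ∀ j ∈ Finset.range p, F ∣[k] tU ((j : ℤ) * x) = F := fun j _ => slash_tU_mul h j
  rw [Finset.sum_congr rfl key, Finset.sum_const, Finset.card_range,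
    ← Nat.cast_smul_eq_nsmul ℂ, smul_smul, inv_mul_cancel₀ (by exact_mod_cast hp), one_smul]

/-- (c) `avgT F` is invariant under the translation, if `F` is invariant under its `p`-th power. -/
theorem avgT_slash_tU {x : ℤ} {p : ℕ} {F : ℍ → ℂ} (h : F ∣[k] tU (p * x) = F) :
    (avgT k x p F) ∣[k] tU x = avgT k x p F := by
  rw [avgT, ModularForm.SL_smul_slash, SlashAction.sum_slash]
  congr 1
  have key : ∀ j : ℕ, (F ∣[k] tU ((j : ℤ) * x)) ∣[k] tU x = F ∣[k] tU (((j + 1 : ℕ) : ℤ) * x) := by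
    intro j
    rw [← SlashAction.slash_mul, ← tU_add]
    congr 2
    push_cast; ring
  simp only [key]
  have h1 := Finset.sum_range_succ' (fun j : ℕ => F ∣[k] tU ((j : ℤ) * x)) p
  have h2 := Finset.sum_range_succ (fun j : ℕ => F ∣[k] tU ((j : ℤ) * x)) p
  simp only [Nat.cast_zero, zero_mul, tU_zero, SlashAction.slash_one] at h1
  rw [h] at h2
  rw [h2] at h1
  exact (add_right_cancel h1).symm

end Fermat.Agent.Lib.Newform.H803
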