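import Mathlib
import Fermat.Agent.Lib.Newform.H803.Ops

/-!
# Cuspidal functions (helper803)

`IsCuspidal k F`: `F : ℍ → ℂ` is holomorphic and vanishes (in weight `k`) at every rational cusp.
This class is stable under the slash action of `GL(2, ℚ)`, contains all cusp forms for
arithmetic subgroups, and an `IsCuspidal` function invariant under `Γ ≤ SL(2, ℤ)` is a cusp form
for `Γ`.
-/

set_option autoImplicit false

namespace Fermat.Agent.Lib.Newform.H803

open Matrix Matrix.SpecialLinearGroup CongruenceSubgroup UpperHalfPlane ModularForm OnePoint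
open scoped MatrixGroups ModularForm Manifold Pointwise

variable {k : ℤ}

/-- Holomorphic and vanishing at all rational cusps. -/
def IsCuspidal (k : ℤ) (F : ℍ → ℂ) : Prop :=
  MDiff F ∧ ∀ c : OnePoint ℝ, IsCusp c 𝒮ℒ → c.IsZeroAt F k

theorem IsCuspidal.add {F G : ℍ → ℂ} (hF : IsCuspidal k F) (hG : IsCuspidal k G) :
    IsCuspidal k (F + G) :=
  ⟨hF.1.add hG.1, fun c hc => (hF.2 c hc).add (hG.2 c hc)⟩

theorem IsCuspidal.zero : IsCuspidal k (0 : ℍ → ℂ) := by
  refine ⟨mdifferentiable_const, fun c _ g _ => ?_⟩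
  rw [SlashAction.zero_slash]
  exact Filter.zero_zeroAtFilter _

theorem IsCuspidal.smul {F : ℍ → ℂ} (a : ℂ) (hF : IsCuspidal k F) : IsCuspidal k (a • F) := by
  refine ⟨hF.1.const_smul a, fun c hc g hg => ?_⟩
  rw [ModularForm.smul_slash]
  exact Filter.ZeroAtFilter.smul _ (hF.2 c hc g hg)

/-- The submodule of cuspidal functions. -/
def cuspSub (k : ℤ) : Submodule ℂ (ℍ → ℂ) where
  carrier := {F | IsCuspidal k F}
  add_mem' := fun hF hG => hF.add hG
  zero_mem' := IsCuspidal.zero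
  smul_mem' := fun a _ hF => hF.smul a

@[simp] theorem mem_cuspSub {F : ℍ → ℂ} : F ∈ cuspSub k ↔ IsCuspidal k F := Iff.rfl

/-- Stability under the slash action of rational matrices. -/
theorem IsCuspidal.slash_rat {F : ℍ → ℂ} (hF : IsCuspidal k F) (g : GL (Fin 2) ℚ) :
    IsCuspidal k (F ∣[k] (g.map (Rat.castHom ℝ))) := by
  refine ⟨hF.1.slash k _, fun c hc => ?_⟩
  rw [← IsZeroAt.smul_iff]
  apply hF.2
  have h1 := hc.smul (g.map (Rat.castHom ℝ))
  have := isArithmetic_conj_SL2Z g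
  exact (Subgroup.IsArithmetic.isCusp_iff_isCusp_SL2Z _).mp h1

/-- Stability under the slash action of `SL(2, ℤ)`. -/
theorem IsCuspidal.slash_SL {F : ℍ → ℂ} (hF : IsCuspidal k F) (γ : SL(2, ℤ)) :
    IsCuspidal k (F ∣[k] γ) := by
  refine ⟨hF.1.slash k _, fun c hc => ?_⟩
  rw [ModularForm.SL_slash, ← IsZeroAt.smul_iff]
  apply hF.2
  exact hc.smul_of_mem ⟨γ, rfl⟩

theorem cuspSub_slash_stable : ∀ F ∈ cuspSub k, ∀ γ : SL(2, ℤ), F ∣[k] γ ∈ cuspSub k :=
  fun _ hF γ => IsCuspidal.slash_SL hF γ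

/-- Cusp forms for arithmetic subgroups are cuspidal. -/
theorem isCuspidal_of_cuspForm {Γ : Subgroup (GL (Fin 2) ℝ)} [Γ.IsArithmetic]
    (f : CuspForm Γ k) : IsCuspidal k (f : ℍ → ℂ) :=
  ⟨f.holo', fun _ hc => f.zero_at_cusps' ((Subgroup.IsArithmetic.isCusp_iff_isCusp_SL2Z Γ).mpr hc)⟩

/-- A cuspidal function invariant under `Γ ≤ SL(2, ℤ)` is a cusp form for `Γ`. -/
def cuspFormOfIsCuspidal (Γ : Subgroup SL(2, ℤ)) (F : ℍ → ℂ) (hF : IsCuspidal k F)
    (hinv : SlInv k Γ F) : CuspForm Γ k where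
  toFun := F
  slash_action_eq' := by
    rintro γ ⟨γ', hγ', rfl⟩
    exact hinv γ' hγ'
  holo' := hF.1
  zero_at_cusps' := fun {c} hc => hF.2 c (hc.mono (by
    rintro γ ⟨γ', _, rfl⟩
    exact ⟨γ', rfl⟩))

@[simp] theorem coe_cuspFormOfIsCuspidal (Γ : Subgroup SL(2, ℤ)) (F : ℍ → ℂ)
    (hF : IsCuspidal k F) (hinv : SlInv k Γ F) :
    ((cuspFormOfIsCuspidal Γ F hF hinv : CuspForm Γ k) : ℍ → ℂ) = F := rfl

end Fermat.Agent.Lib.Newform.H803
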