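import Mathlib
import Fermat.Agent.Lib.Newform.H803.Ops

/-!
# The Atkin–Lehner main lemma, `Γ⁰(N)` form on functions (helper803)

`killL k N L F` is `∏_{p ∈ L} (1 - π_p) F` where `π_p = avgT k (N/p) p` is the average over the
translations `T^{j N / p}`.  Main result `main_hat`: if `F` is `Γ⁰(N)`-invariant and
`killL k N L F = 0` for a list `L` of distinct primes dividing `N`, then `F = ∑_{p ∈ L} G_p` with
`G_p` invariant under `Γ⁰(N / p)`; moreover the `G_p` stay in any slash-stable submodule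
containing `F`.
-/

set_option autoImplicit false

namespace Fermat.Agent.Lib.Newform.H803

open Matrix Matrix.SpecialLinearGroup CongruenceSubgroup UpperHalfPlane ModularForm
open scoped MatrixGroups ModularForm

variable {k : ℤ}

/-- `∏_{p ∈ L} (1 - π_p)`. -/
noncomputable def killL (k : ℤ) (N : ℕ) : List ℕ → (ℍ → ℂ) → (ℍ → ℂ)
  | [], F => F
  | p :: L, F => killL k N L F - avgT k (↑(N / p)) p (killL k N L F)

@[simp] theorem killL_nil (N : ℕ) (F : ℍ → ℂ) : killL k N [] F = F := rfl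

theorem killL_cons (N : ℕ) (p : ℕ) (L : List ℕ) (F : ℍ → ℂ) :
    killL k N (p :: L) F = killL k N L F - avgT k (↑(N / p)) p (killL k N L F) := rfl

theorem killL_sub (N : ℕ) (L : List ℕ) (F G : ℍ → ℂ) :
    killL k N L (F - G) = killL k N L F - killL k N L G := by
  induction L with
  | nil => rfl
  | cons p L ih =>
    rw [killL_cons, killL_cons, killL_cons, ih, avgT_sub]
    abel

theorem killL_mem (N : ℕ) (L : List ℕ) {𝒮 : Submodule ℂ (ℍ → ℂ)}
    (h𝒮 : ∀ F ∈ 𝒮, ∀ γ : SL(2, ℤ), F ∣[k] γ ∈ 𝒮) {F : ℍ → ℂ} (hF : F ∈ 𝒮) :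
    killL k N L F ∈ 𝒮 := by
  induction L with
  | nil => exact hF
  | cons p L ih => exact 𝒮.sub_mem ih (avgT_mem _ _ h𝒮 ih)

theorem killL_slInv_Gamma (N : ℕ) (L : List ℕ) {F : ℍ → ℂ} (hF : SlInv k (Gamma N) F) :
    SlInv k (Gamma N) (killL k N L F) := by
  induction L with
  | nil => exact hF
  | cons p L ih => exact ih.sub (avgT_slInv_Gamma _ _ ih)

/-- `killL` commutes with the slash by `g` if `g` commutes with the translations. -/
theorem killL_slash_comm {N : ℕ} (L : List ℕ) {F : ℍ → ℂ} (hF : SlInv k (Gamma N) F)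
    {g : SL(2, ℤ)}
    (hg : ∀ q ∈ L, ∀ j : ℤ, (tU (j * ↑(N / q)) * g) * (g * tU (j * ↑(N / q)))⁻¹ ∈ Gamma N) :
    (killL k N L F) ∣[k] g = killL k N L (F ∣[k] g) := by
  induction L with
  | nil => rfl
  | cons p L ih =>
    have ih' := ih fun q hq => hg q (List.mem_cons_of_mem _ hq)
    rw [killL_cons, killL_cons, sub_slash, ih',
      avgT_slash_comm (killL_slInv_Gamma N L hF) (hg p List.mem_cons_self), ih']

theorem avg_sum {N : ℕ} [NeZero N] (J : Subgroup SL(2, ℤ)) {ι : Type*} (s : Finset ι)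
    (F : ι → ℍ → ℂ) : avg k N J (∑ i ∈ s, F i) = ∑ i ∈ s, avg k N J (F i) := by
  classical
  induction s using Finset.induction_on with
  | empty => simp [avg_zero]
  | insert a s ha ih => rw [Finset.sum_insert ha, Finset.sum_insert ha, avg_add, ih]

/-- `avgT` commutes with `avg`. -/
theorem avgT_avg_comm {N : ℕ} [NeZero N] {J : Subgroup SL(2, ℤ)} {x : ℤ} (p : ℕ) {F : ℍ → ℂ}
    (hF : SlInv k (Gamma N) F)
    (hJ : ∀ γ ∈ J, ∀ j : ℤ, (γ * tU (j * x)) * (tU (j * x) * γ)⁻¹ ∈ Gamma N) :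
    avgT k x p (avg k N J F) = avg k N J (avgT k x p F) := by
  rw [avgT, avgT, avg_smul, avg_sum]
  congr 1
  refine Finset.sum_congr rfl fun j _ => ?_
  exact avg_slash_comm hF fun γ hγ => hJ γ hγ j

/-- `killL` commutes with `avg`. -/
theorem killL_avg_comm {N : ℕ} [NeZero N] {J : Subgroup SL(2, ℤ)} (L : List ℕ) {F : ℍ → ℂ}
    (hF : SlInv k (Gamma N) F)
    (hJ : ∀ q ∈ L, ∀ γ ∈ J, ∀ j : ℤ,
      (γ * tU (j * ↑(N / q))) * (tU (j * ↑(N / q)) * γ)⁻¹ ∈ Gamma N) :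
    killL k N L (avg k N J F) = avg k N J (killL k N L F) := by
  induction L with
  | nil => rfl
  | cons p L ih =>
    have ih' := ih fun q hq => hJ q (List.mem_cons_of_mem _ hq)
    rw [killL_cons, killL_cons, ih', avg_sub,
      avgT_avg_comm p (killL_slInv_Gamma N L hF) (hJ p List.mem_cons_self)]

theorem ord_facts_aux {N p P m : ℕ} (hp : p.Prime) (hpN : p ∣ N) (hPm : P * m = N)
    (hpP : p ∣ P) (hqP : ∀ q : ℕ, q.Prime → q ≠ p → Nat.Coprime q P) :
    m ∣ N / p ∧ N / p ∣ P * m ∧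
      ∀ q : ℕ, q.Prime → q ≠ p → q ∣ N → N ∣ m * (N / q) := by
  refine ⟨?_, ?_, ?_⟩
  · obtain ⟨P', rfl⟩ := hpP
    refine ⟨P', ?_⟩
    have h1 : N = p * (m * P') := by rw [← hPm]; ring
    conv_lhs => rw [h1]
    exact Nat.mul_div_cancel_left _ hp.pos
  · rw [hPm]
    exact Nat.div_dvd_of_dvd hpN
  · intro q hq hqp hqN
    have hcop' : Nat.Coprime q P := hqP q hq hqp
    have hqm : q ∣ m := by
      have : q ∣ P * m := by rw [hPm]; exact hqN
      exact hcop'.dvd_of_dvd_mul_left this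
    obtain ⟨m', hm'⟩ := hqm
    refine ⟨m', ?_⟩
    rw [hm']
    have : q * (N / q) = N := Nat.mul_div_cancel' hqN
    calc q * m' * (N / q) = (q * (N / q)) * m' := by ring
      _ = N * m' := by rw [this]

/-- Arithmetic of the `p`-part and the prime-to-`p` part of `N`. -/
theorem ord_facts {N p : ℕ} (hN : N ≠ 0) (hp : p.Prime) (hpN : p ∣ N) :
    ∃ P m : ℕ, P * m = N ∧ Nat.Coprime P m ∧ m ∣ N / p ∧ N / p ∣ P * m ∧
      ∀ q : ℕ, q.Prime → q ≠ p → q ∣ N → N ∣ m * (N / q) := by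
  have hPm := Nat.ordProj_mul_ordCompl_eq_self N p
  have hcop : Nat.Coprime (ordProj[p] N) (ordCompl[p] N) :=
    (Nat.coprime_ordCompl hp hN).pow_left _
  have hpP : p ∣ ordProj[p] N := Nat.dvd_ordProj_of_dvd hN hp hpN
  have hqP : ∀ q : ℕ, q.Prime → q ≠ p → Nat.Coprime q (ordProj[p] N) := fun q hq hqp =>
    ((Nat.coprime_primes hq hp).mpr hqp).pow_right _
  exact ⟨ordProj[p] N, ordCompl[p] N, hPm, hcop, ord_facts_aux hp hpN hPm hpP hqP⟩

/-- **Atkin–Lehner main lemma**, `Γ⁰(N)`-form. -/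
theorem main_hat (N : ℕ) [NeZero N] {𝒮 : Submodule ℂ (ℍ → ℂ)}
    (h𝒮 : ∀ F ∈ 𝒮, ∀ γ : SL(2, ℤ), F ∣[k] γ ∈ 𝒮) :
    ∀ L : List ℕ, L.Nodup → (∀ p ∈ L, p.Prime ∧ p ∣ N) →
      ∀ F ∈ 𝒮, SlInv k (GammaU N) F → killL k N L F = 0 →
      ∃ G : ℕ → (ℍ → ℂ), (∀ p ∈ L, G p ∈ 𝒮 ∧ SlInv k (GammaU (N / p)) (G p)) ∧
        F = (L.map G).sum := by
  have hN0 : N ≠ 0 := NeZero.ne N
  intro L
  induction L with
  | nil =>
    intro _ _ F _ _ hK
    refine ⟨fun _ => 0, by simp, ?_⟩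
    simpa using hK
  | cons p L ih =>
    intro hnd hL F hF𝒮 hF hK
    obtain ⟨hp, hpN⟩ := hL p List.mem_cons_self
    have hpL : p ∉ L := (List.nodup_cons.mp hnd).1
    have hndL : L.Nodup := (List.nodup_cons.mp hnd).2
    have hL' : ∀ q ∈ L, q.Prime ∧ q ∣ N := fun q hq => hL q (List.mem_cons_of_mem _ hq)
    obtain ⟨P, m, hPm, hcop, hmd, hdN, hq⟩ := ord_facts hN0 hp hpN
    set d : ℕ := N / p with hd
    have hpd : p * d = N := Nat.mul_div_cancel' hpN
    have hdN' : d ∣ N := Nat.div_dvd_of_dvd hpN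
    have hmN : m ∣ N := Dvd.intro_left P hPm
    have hFΓ : SlInv k (Gamma N) F := hF.mono (Gamma_le_GammaU N)
    -- the subgroups
    set J : Subgroup SL(2, ℤ) := Gamma m ⊓ GammaU d with hJ
    have hΓJ : Gamma N ≤ J := le_inf (Gamma_mono hmN) ((Gamma_le_GammaU N).trans (GammaU_mono hdN'))
    -- commutation of `J` with the other translations
    have hJq : ∀ q ∈ L, ∀ γ ∈ J, ∀ j : ℤ,
        (γ * tU (j * ↑(N / q))) * (tU (j * ↑(N / q)) * γ)⁻¹ ∈ Gamma N := by
      intro q hqL γ hγ j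
      have hqp : q ≠ p := fun h => hpL (h ▸ hqL)
      exact comm_mem_Gamma (hq q (hL' q hqL).1 hqp (hL' q hqL).2) hγ.1
        (tU_mem_Gamma (Dvd.intro_left _ rfl))
    have hqJ : ∀ q ∈ L, ∀ γ ∈ Gamma m, ∀ j : ℤ,
        (tU (j * ↑(N / q)) * γ) * (γ * tU (j * ↑(N / q)))⁻¹ ∈ Gamma N := by
      intro q hqL γ hγ j
      have hqp : q ≠ p := fun h => hpL (h ▸ hqL)
      have h1 : N ∣ (N / q) * m := by
        rw [mul_comm]; exact hq q (hL' q hqL).1 hqp (hL' q hqL).2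
      exact comm_mem_Gamma h1 (tU_mem_Gamma (Dvd.intro_left _ rfl)) hγ
    -- `w = killL L F`
    set w : ℍ → ℂ := killL k N L F with hw
    have hwΓ : SlInv k (Gamma N) w := killL_slInv_Gamma N L hFΓ
    have hπw : avgT k (↑d) p w = w := by
      have := hK
      rw [killL_cons, sub_eq_zero] at this
      exact this.symm
    -- `w` is invariant under the translation `tU d`
    have hwT : w ∣[k] tU (↑d) = w := by
      have h1 : w ∣[k] tU ((p : ℤ) * (d : ℤ)) = w := by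
        apply hwΓ
        apply tU_mem_Gamma
        rw [← Nat.cast_mul, hpd]
      have := avgT_slash_tU (k := k) (x := (d : ℤ)) (p := p) (F := w) h1
      rwa [hπw] at this
    -- `w` is invariant under `Γ(m) ⊓ Γ⁰(N)`
    have hwH : SlInv k (Gamma m ⊓ GammaU N) w := by
      intro h hh
      rw [hw, killL_slash_comm L hFΓ (fun q hqL j => hqJ q hqL h hh.1 j), hF h hh.2]
    -- hence under `J`
    have hwJ : SlInv k J w := by
      intro γ hγ
      obtain ⟨i, j, hij⟩ := exists_tU_mul_mem_GammaU hp hγ.2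
      rw [hpd] at hij
      have hmem : tU (i * ↑d) * γ * tU (j * ↑d) ∈ Gamma m ⊓ GammaU N := by
        refine ⟨?_, hij⟩
        have hm' : (m : ℤ) ∣ (d : ℤ) := Int.natCast_dvd_natCast.mpr hmd
        exact Subgroup.mul_mem _ (Subgroup.mul_mem _ (tU_mem_Gamma (Dvd.dvd.mul_left hm' _)) hγ.1)
          (tU_mem_Gamma (Dvd.dvd.mul_left hm' _))
      have h1 := hwH _ hmem
      rw [SlashAction.slash_mul, SlashAction.slash_mul, slash_tU_mul hwT] at h1
      -- `(w ∣ γ) ∣ tU (j d) = w`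
      have h2 : ((w ∣[k] γ) ∣[k] tU (j * ↑d)) ∣[k] tU (-j * ↑d) = w ∣[k] tU (-j * ↑d) := by
        rw [h1]
      rw [← SlashAction.slash_mul, ← tU_add, slash_tU_mul hwT] at h2
      have e : j * (d : ℤ) + -j * (d : ℤ) = 0 := by ring
      rwa [e, tU_zero, SlashAction.slash_one] at h2
    -- the two pieces
    set v₁ : ℍ → ℂ := avg k N J F with hv₁
    have hv₁𝒮 : v₁ ∈ 𝒮 := avg_mem J h𝒮 hF𝒮
    have hv₁J : SlInv k J v₁ := avg_slInv hFΓ
    have hv₁H : SlInv k (Gamma P ⊓ GammaU (P * m)) v₁ := by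
      intro h hh
      rw [hv₁, avg_slash_comm hFΓ (g := h), hF h (by rw [← hPm]; exact hh.2)]
      intro γ hγ
      exact comm_mem_Gamma (by rw [mul_comm, hPm]) hγ.1 hh.1
    have hv₁U : SlInv k (GammaU d) v₁ := by
      intro g hg
      obtain ⟨g₁, hg₁, g₂, hg₂, rfl⟩ := exists_mul_of_mem_GammaU hcop hmd hdN hg
      rw [SlashAction.slash_mul, hv₁J g₁ hg₁, hv₁H g₂ hg₂]
    have hv₂𝒮 : F - v₁ ∈ 𝒮 := 𝒮.sub_mem hF𝒮 hv₁𝒮
    have hv₂U : SlInv k (GammaU N) (F - v₁) := hF.sub (hv₁U.mono (GammaU_mono hdN'))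
    have hv₂K : killL k N L (F - v₁) = 0 := by
      rw [killL_sub, hv₁, killL_avg_comm L hFΓ hJq, ← hw, avg_of_slInv hwJ, sub_self]
    obtain ⟨G, hG, hGsum⟩ := ih hndL hL' (F - v₁) hv₂𝒮 hv₂U hv₂K
    refine ⟨Function.update G p v₁, ?_, ?_⟩
    · intro q hqL
      rcases List.mem_cons.mp hqL with rfl | hqL'
      · rw [Function.update_self]
        exact ⟨hv₁𝒮, hv₁U⟩
      · have hqp : q ≠ p := fun h => hpL (h ▸ hqL')
        rw [Function.update_of_ne hqp]
        exact hG q hqL'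
    · rw [List.map_cons, List.sum_cons, Function.update_self]
      have e : L.map (Function.update G p v₁) = L.map G := by
        apply List.map_congr_left
        intro q hqL
        have hqp : q ≠ p := fun h => hpL (h ▸ hqL)
        rw [Function.update_of_ne hqp]
      rw [e, ← hGsum]
      abel

end Fermat.Agent.Lib.Newform.H803
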