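import Mathlib
import Fermat.Prelude.Def_ModularForm_HeckeOperator
import Fermat.Agent.Lib.Newform.H803.Main
import Fermat.Agent.Lib.Newform.H803.Cuspidal

/-!
# Bridge between `Γ₀(N)` cusp forms and `Γ⁰(N)`-invariant functions (helper803)
-/

set_option autoImplicit false

namespace Fermat.Agent.Lib.Newform.H803

open Matrix Matrix.SpecialLinearGroup CongruenceSubgroup UpperHalfPlane ModularForm OnePoint
open scoped MatrixGroups ModularForm Manifold Pointwise Real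

variable {k : ℤ}

/-! ### Conjugation by diagonal matrices -/

theorem mem_Gamma0_iff_dvd {N : ℕ} {g : SL(2, ℤ)} : g ∈ Gamma0 N ↔ (N : ℤ) ∣ g 1 0 := by
  rw [Gamma0_mem, ZMod.intCast_zmod_eq_zero_iff_dvd]

/-- `diag(1, N) γ = γ' diag(1, N)` with `γ' ∈ Γ₀(N)` for `γ ∈ Γ⁰(N)`. -/
theorem heckeMatrix_zero_mul_mapGL {N : ℕ} (hN : N ≠ 0) {g : SL(2, ℤ)} (hg : g ∈ GammaU N) :
    ∃ g' ∈ Gamma0 N, heckeMatrix N 0 * mapGL ℝ g = mapGL ℝ g' * heckeMatrix N 0 := by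
  obtain ⟨e, he⟩ := mem_GammaU.mp hg
  have hdet := det_eq_one' g
  obtain ⟨g', hg'⟩ : ∃ g' : SL(2, ℤ),
      (g' : Matrix (Fin 2) (Fin 2) ℤ) = !![g 0 0, e; N * g 1 0, g 1 1] := by
    refine ⟨⟨!![g 0 0, e; N * g 1 0, g 1 1], ?_⟩, rfl⟩
    rw [Matrix.det_fin_two_of]
    linear_combination hdet + (g 1 0) * he
  refine ⟨g', ?_, ?_⟩
  · rw [mem_Gamma0_iff_dvd]
    have : g' 1 0 = N * g 1 0 := by rw [hg']; rfl
    rw [this]
    exact Dvd.intro _ rfl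
  · apply Units.ext
    rw [Units.val_mul, Units.val_mul, val_heckeMatrix hN, mapGL_coe_matrix, mapGL_coe_matrix]
    have he' : ((g 0 1 : ℤ) : ℝ) = N * e := by exact_mod_cast he
    ext i j
    fin_cases i <;> fin_cases j <;>
      simp [Matrix.mul_apply, Fin.sum_univ_two, he', hg'] <;> ring

/-- `diag(d, 1) γ = γ' diag(d, 1)` with `γ' ∈ Γ⁰(d)` for `γ ∈ Γ₀(d)`. -/
theorem heckeDiagMatrix_mul_mapGL {d : ℕ} (hd : d ≠ 0) {g : SL(2, ℤ)} (hg : g ∈ Gamma0 d) :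
    ∃ g' ∈ GammaU d, heckeDiagMatrix d * mapGL ℝ g = mapGL ℝ g' * heckeDiagMatrix d := by
  obtain ⟨e, he⟩ := mem_Gamma0_iff_dvd.mp hg
  have hdet := det_eq_one' g
  obtain ⟨g', hg'⟩ : ∃ g' : SL(2, ℤ),
      (g' : Matrix (Fin 2) (Fin 2) ℤ) = !![g 0 0, d * g 0 1; e, g 1 1] := by
    refine ⟨⟨!![g 0 0, d * g 0 1; e, g 1 1], ?_⟩, rfl⟩
    rw [Matrix.det_fin_two_of]
    linear_combination hdet + (g 0 1) * he
  refine ⟨g', ?_, ?_⟩
  · rw [mem_GammaU]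
    have : g' 0 1 = d * g 0 1 := by rw [hg']; rfl
    rw [this]
    exact Dvd.intro _ rfl
  · apply Units.ext
    rw [Units.val_mul, Units.val_mul, val_heckeDiagMatrix hd, mapGL_coe_matrix, mapGL_coe_matrix]
    have he' : ((g 1 0 : ℤ) : ℝ) = d * e := by exact_mod_cast he
    ext i j
    fin_cases i <;> fin_cases j <;>
      simp [Matrix.mul_apply, Fin.sum_univ_two, he', hg'] <;> ring

/-- Upper triangular rational matrices. -/
noncomputable def upperTriQ (a b d : ℚ) (had : a * d ≠ 0) : GL (Fin 2) ℚ :=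
  Matrix.GeneralLinearGroup.mkOfDetNeZero !![a, b; 0, d]
    (by rwa [Matrix.det_fin_two_of, mul_zero, sub_zero])

theorem heckeMatrix_eq_map {p : ℕ} (hp : p ≠ 0) (j : ℕ) :
    heckeMatrix p j =
      (upperTriQ 1 j p (by rw [one_mul]; exact_mod_cast hp)).map (Rat.castHom ℝ) := by
  apply Units.ext
  rw [val_heckeMatrix hp]
  ext i j
  fin_cases i <;> fin_cases j <;> simp [upperTriQ]

theorem heckeDiagMatrix_eq_map {p : ℕ} (hp : p ≠ 0) :
    heckeDiagMatrix p =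
      (upperTriQ p 0 1 (by rw [mul_one]; exact_mod_cast hp)).map (Rat.castHom ℝ) := by
  apply Units.ext
  rw [val_heckeDiagMatrix hp]
  ext i j
  fin_cases i <;> fin_cases j <;> simp [upperTriQ]

theorem IsCuspidal.slash_heckeMatrix {F : ℍ → ℂ} (hF : IsCuspidal k F) {p : ℕ} (hp : p ≠ 0)
    (j : ℕ) : IsCuspidal k (F ∣[k] heckeMatrix p j) := by
  rw [heckeMatrix_eq_map hp]
  exact hF.slash_rat _

theorem IsCuspidal.slash_heckeDiagMatrix {F : ℍ → ℂ} (hF : IsCuspidal k F) {p : ℕ} (hp : p ≠ 0) :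
    IsCuspidal k (F ∣[k] heckeDiagMatrix p) := by
  rw [heckeDiagMatrix_eq_map hp]
  exact hF.slash_rat _

theorem sl_slash_mapGL (F : ℍ → ℂ) (γ : SL(2, ℤ)) : F ∣[k] γ = F ∣[k] (mapGL ℝ γ) := rfl

/-- The hat transform `f ↦ f ∣ diag(1, N)` of a `Γ₀(N)`-invariant function is
`Γ⁰(N)`-invariant. -/
theorem slInv_hat {N : ℕ} (hN : N ≠ 0) {f : ℍ → ℂ} (hf : SlInv k (Gamma0 N) f) :
    SlInv k (GammaU N) (f ∣[k] heckeMatrix N 0) := by
  intro g hg
  obtain ⟨g', hg', e⟩ := heckeMatrix_zero_mul_mapGL hN hg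
  rw [sl_slash_mapGL, ← SlashAction.slash_mul, e, SlashAction.slash_mul,
    ← sl_slash_mapGL, hf g' hg']

/-- The inverse transform `G ↦ G ∣ diag(d, 1)` of a `Γ⁰(d)`-invariant function is
`Γ₀(d)`-invariant. -/
theorem slInv_unhat {d : ℕ} (hd : d ≠ 0) {G : ℍ → ℂ} (hG : SlInv k (GammaU d) G) :
    SlInv k (Gamma0 d) (G ∣[k] heckeDiagMatrix d) := by
  intro g hg
  obtain ⟨g', hg', e⟩ := heckeDiagMatrix_mul_mapGL hd hg
  rw [sl_slash_mapGL, ← SlashAction.slash_mul, e, SlashAction.slash_mul,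
    ← sl_slash_mapGL, hG g' hg']

theorem slInv_of_cuspForm {Γ : Subgroup SL(2, ℤ)} (f : CuspForm Γ k) :
    SlInv k Γ (f : ℍ → ℂ) := fun γ hγ =>
  f.slash_action_eq' _ ⟨γ, hγ, rfl⟩

end Fermat.Agent.Lib.Newform.H803
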