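import Mathlib
import Fermat.Agent.Lib.Newform.H803.Bridge

/-!
# `q`-series of the hat transform and of the operators `avgT`, `killL` (helper803)
-/

set_option autoImplicit false

namespace Fermat.Agent.Lib.Newform.H803

open Matrix Matrix.SpecialLinearGroup CongruenceSubgroup UpperHalfPlane ModularForm
open scoped MatrixGroups ModularForm Manifold Real

variable {k : ℤ}

/-- `F(τ) = ∑ c_n e^{2πi n τ / N}`. -/
def HasQN (N : ℕ) (c : ℕ → ℂ) (F : ℍ → ℂ) : Prop :=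
  ∀ τ : ℍ, HasSum (fun n : ℕ => c n * Complex.exp (2 * π * Complex.I * n * τ / N)) (F τ)

theorem HasQN.eq_zero {N : ℕ} {c : ℕ → ℂ} {F : ℍ → ℂ} (h : HasQN N c F) (hc : ∀ n, c n = 0) :
    F = 0 := by
  funext τ
  have h1 := h τ
  simp only [hc, zero_mul] at h1
  exact h1.unique hasSum_zero

theorem HasQN.sub {N : ℕ} {c c' : ℕ → ℂ} {F F' : ℍ → ℂ} (h : HasQN N c F) (h' : HasQN N c' F') :
    HasQN N (fun n => c n - c' n) (F - F') := by
  intro τ
  have := (h τ).sub (h' τ)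
  simpa [sub_mul] using this

theorem coe_tU_smul (x : ℤ) (τ : ℍ) : ((tU x • τ : ℍ) : ℂ) = τ + x := by
  rw [tU_eq_T_zpow, ModularGroup.coe_T_zpow_smul_eq]

theorem slash_tU_apply (F : ℍ → ℂ) (x : ℤ) (τ : ℍ) : (F ∣[k] tU x) τ = F (tU x • τ) := by
  rw [ModularForm.SL_slash_apply]
  have : denom (tU x) τ = 1 := by
    rw [ModularGroup.denom_apply]
    simp
  rw [this, _root_.one_zpow, mul_one]

/-- The sum of the `p`-th roots of unity to the power `n`. -/
theorem sum_exp_eq {p : ℕ} (hp : p ≠ 0) (n : ℕ) :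
    ∑ j ∈ Finset.range p, Complex.exp (2 * π * Complex.I * n * j / p) =
      if p ∣ n then (p : ℂ) else 0 := by
  have hprim := Complex.isPrimitiveRoot_exp p hp
  set ζ : ℂ := Complex.exp (2 * π * Complex.I / p) with hζ
  have e : ∀ j : ℕ, Complex.exp (2 * π * Complex.I * n * j / p) = (ζ ^ n) ^ j := by
    intro j
    rw [hζ, ← Complex.exp_nat_mul, ← Complex.exp_nat_mul]
    congr 1
    ring
  simp only [e]
  split_ifs with h
  · have h1 : ζ ^ n = 1 := (hprim.pow_eq_one_iff_dvd n).mpr h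
    simp [h1]
  · have h1 : ζ ^ n ≠ 1 := fun h1 => h ((hprim.pow_eq_one_iff_dvd n).mp h1)
    have h2 := geom_sum_mul (ζ ^ n) p
    have h3 : (ζ ^ n) ^ p = 1 := by
      rw [← pow_mul, mul_comm, pow_mul, hprim.pow_eq_one, one_pow]
    rw [h3, sub_self] at h2
    rcases mul_eq_zero.mp h2 with h4 | h4
    · exact h4
    · exact absurd (sub_eq_zero.mp h4) h1

/-- `q`-series of `avgT`. -/
theorem hasQN_avgT {N : ℕ} {c : ℕ → ℂ} {F : ℍ → ℂ} (h : HasQN N c F) {p : ℕ} (hp : p ≠ 0)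
    (hpN : p ∣ N) (hN : N ≠ 0) :
    HasQN N (fun n => if p ∣ n then c n else 0) (avgT k (↑(N / p)) p F) := by
  intro τ
  have hN' : (N : ℂ) ≠ 0 := by exact_mod_cast hN
  have hp' : (p : ℂ) ≠ 0 := by exact_mod_cast hp
  have hval : avgT k (↑(N / p)) p F τ =
      (p : ℂ)⁻¹ * ∑ j ∈ Finset.range p, F (tU ((j : ℤ) * ↑(N / p)) • τ) := by
    simp only [Fermat.Agent.Lib.Newform.H803.avgT, Pi.smul_apply, Finset.sum_apply,
      slash_tU_apply, smul_eq_mul]
  rw [hval]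
  have hsum : HasSum (fun n : ℕ => ∑ j ∈ Finset.range p,
      c n * Complex.exp (2 * π * Complex.I * n * ((tU ((j : ℤ) * ↑(N / p)) • τ : ℍ) : ℂ) / N))
      (∑ j ∈ Finset.range p, F (tU ((j : ℤ) * ↑(N / p)) • τ)) :=
    hasSum_sum fun j _ => h (tU ((j : ℤ) * ↑(N / p)) • τ)
  have hsum' := hsum.mul_left ((p : ℂ)⁻¹)
  have hfun : (fun n : ℕ => (if p ∣ n then c n else 0) *
      Complex.exp (2 * π * Complex.I * n * τ / N)) = fun n : ℕ => (p : ℂ)⁻¹ *
      ∑ j ∈ Finset.range p,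
        c n * Complex.exp (2 * π * Complex.I * n * ((tU ((j : ℤ) * ↑(N / p)) • τ : ℍ) : ℂ) / N) := by
    funext n
    have e : ∀ j : ℕ, c n * Complex.exp
      (2 * π * Complex.I * n * ((tU ((j : ℤ) * ↑(N / p)) • τ : ℍ) : ℂ) / N) =
      (c n * Complex.exp (2 * π * Complex.I * n * τ / N)) *
        Complex.exp (2 * π * Complex.I * n * j / p) := by
      intro j
      rw [coe_tU_smul, mul_assoc (c n), ← Complex.exp_add]
      congr 2
      have hd : ((N / p : ℕ) : ℂ) = (N : ℂ) / p := by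
        rw [Nat.cast_div hpN hp']
      have hcast : (((j : ℤ) * ((N / p : ℕ) : ℤ) : ℤ) : ℂ) = (j : ℂ) * ((N : ℂ) / p) := by
        rw [Int.cast_mul, Int.cast_natCast, Int.cast_natCast, hd]
      rw [hcast]
      field_simp
    simp only [e, ← Finset.mul_sum, sum_exp_eq hp]
    split_ifs with hpn
    · field_simp
    · simp
  rw [hfun]
  exact hsum'

theorem HasQN.congr {N : ℕ} {c c' : ℕ → ℂ} {F : ℍ → ℂ} (h : HasQN N c F)
    (hc : ∀ n, c n = c' n) : HasQN N c' F := by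
  have : c = c' := funext hc
  rwa [← this]

/-- `q`-series of `killL`. -/
theorem hasQN_killL {N : ℕ} (hN : N ≠ 0) {c : ℕ → ℂ} {F : ℍ → ℂ} (h : HasQN N c F) :
    ∀ L : List ℕ, (∀ p ∈ L, p ≠ 0 ∧ p ∣ N) →
      HasQN N (fun n => if ∃ p ∈ L, p ∣ n then 0 else c n) (killL k N L F)
  | [], _ => by
    rw [killL_nil]
    exact h.congr fun n => by simp
  | p :: L, hL => by
    have ih := hasQN_killL hN h L (fun q hq => hL q (List.mem_cons_of_mem _ hq))
    have h1 := hasQN_avgT (k := k) ih (hL p List.mem_cons_self).1 (hL p List.mem_cons_self).2 hN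
    have h2 := ih.sub h1
    rw [killL_cons]
    refine h2.congr fun n => ?_
    by_cases hp : p ∣ n <;> by_cases hq : ∃ q ∈ L, q ∣ n <;> simp [hp, hq]

/-- `q`-series of the hat transform. -/
theorem hasQN_hat {N : ℕ} (hN : N ≠ 0) {f : ℍ → ℂ} {a : ℕ → ℂ}
    (hf : ∀ τ : ℍ, HasSum (fun m : ℕ => a m * Function.Periodic.qParam 1 τ ^ m) (f τ)) :
    HasQN N (fun n => (N : ℂ)⁻¹ * a n) (f ∣[k] heckeMatrix N 0) := by
  intro τ
  rw [slash_heckeMatrix_apply k hN 0 f τ]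
  have h1 := (hf (heckeMatrix N 0 • τ)).mul_left ((N : ℂ)⁻¹)
  have hfun : (fun n : ℕ => (N : ℂ)⁻¹ * a n * Complex.exp (2 * π * Complex.I * n * τ / N)) =
      fun m : ℕ => (N : ℂ)⁻¹ *
        (a m * Function.Periodic.qParam 1 ((heckeMatrix N 0 • τ : ℍ) : ℂ) ^ m) := by
    funext n
    rw [mul_assoc, Function.Periodic.qParam, ← Complex.exp_nat_mul, coe_heckeMatrix_smul hN]
    congr 3
    push_cast
    ring
  rw [hfun]
  exact h1

end Fermat.Agent.Lib.Newform.H803
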