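import Mathlib
import Fermat.Prelude.Def_ModularForm_HeckeOperator
import Fermat.Agent.Lib.Newform.H803.QSeries

/-!
# The Atkin–Lehner main lemma for `Γ₀(N)` (helper803)

`mainLemma`: if `f ∈ S_k(Γ₀(N))` has `a_n(f) = 0` for all `n` coprime to `N`, then
`f(τ) = ∑_{p ∣ N} g_p(p τ)` with `g_p ∈ S_k(Γ₀(N / p))`.
-/

set_option autoImplicit false

namespace Fermat.Agent.Lib.Newform.H803

open Matrix Matrix.SpecialLinearGroup CongruenceSubgroup UpperHalfPlane ModularForm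
open scoped MatrixGroups ModularForm Manifold Real

variable {k : ℤ}

theorem one_mem_strictPeriods_Gamma0_H803 (N : ℕ) :
    (1 : ℝ) ∈ ((Gamma0 N : Subgroup SL(2, ℤ)) : Subgroup (GL (Fin 2) ℝ)).strictPeriods := by
  simp

/-- The `q`-expansion of a cusp form on `Γ₀(N)` sums to the form. -/
theorem hasSum_qExpansion_Gamma0 {N : ℕ} (f : CuspForm (Gamma0 N) k) (τ : ℍ) :
    HasSum (fun m : ℕ => (qExpansion 1 f).coeff m * Function.Periodic.qParam 1 τ ^ m) (f τ) := by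
  have hΓ := one_mem_strictPeriods_Gamma0_H803 N
  have hc : IsCusp OnePoint.infty ((Gamma0 N : Subgroup SL(2, ℤ)) : Subgroup (GL (Fin 2) ℝ)) :=
    Subgroup.isCusp_of_mem_strictPeriods one_pos hΓ
  have hz : IsZeroAtImInfty (f : ℍ → ℂ) := OnePoint.isZeroAt_infty_iff.mp (f.zero_at_cusps' hc)
  have := UpperHalfPlane.hasSum_qExpansion (f := (f : ℍ → ℂ)) one_pos
    (SlashInvariantFormClass.periodic_comp_ofComplex f hΓ) f.holo' hz.isBoundedAtImInfty τ
  simpa [smul_eq_mul] using this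

theorem heckeMatrix_smul_heckeDiagMatrix_smul {N : ℕ} (hN : N ≠ 0) (τ : ℍ) :
    heckeMatrix N 0 • (heckeDiagMatrix N • τ) = τ := by
  apply UpperHalfPlane.ext
  rw [coe_heckeMatrix_smul hN, coe_heckeDiagMatrix_smul hN]
  have : (N : ℂ) ≠ 0 := by exact_mod_cast hN
  field_simp
  simp

theorem heckeDiagMatrix_smul_smul {d p N : ℕ} (hd : d ≠ 0) (hp : p ≠ 0) (hN : N ≠ 0)
    (h : p * d = N) (τ : ℍ) :
    heckeDiagMatrix d • (heckeDiagMatrix p • τ) = heckeDiagMatrix N • τ := by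
  apply UpperHalfPlane.ext
  rw [coe_heckeDiagMatrix_smul hd, coe_heckeDiagMatrix_smul hp, coe_heckeDiagMatrix_smul hN, ← h]
  push_cast
  ring

/-- **Atkin–Lehner main lemma.** -/
theorem mainLemma (N : ℕ) [NeZero N] (k : ℤ) (f : CuspForm (Gamma0 N) k)
    (h : ∀ n : ℕ, n.Coprime N → (qExpansion 1 f).coeff n = 0) :
    ∃ g : (p : ℕ) → CuspForm (Gamma0 (N / p)) k,
      ∀ τ : ℍ, f τ = ∑ p ∈ N.primeFactors, g p (heckeDiagMatrix p • τ) := by
  classical
  have hN : N ≠ 0 := NeZero.ne N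
  set F : ℍ → ℂ := (f : ℍ → ℂ) ∣[k] heckeMatrix N 0 with hF
  have hFinv : SlInv k (GammaU N) F := slInv_hat hN (slInv_of_cuspForm f)
  have hFcusp : IsCuspidal k F := (isCuspidal_of_cuspForm f).slash_heckeMatrix hN 0
  have hLnd : (N.primeFactors.toList).Nodup := Finset.nodup_toList _
  have hLmem : ∀ p ∈ N.primeFactors.toList, p.Prime ∧ p ∣ N := by
    intro p hp
    rw [Finset.mem_toList, Nat.mem_primeFactors] at hp
    exact ⟨hp.1, hp.2.1⟩
  have hQ : HasQN N (fun n => (N : ℂ)⁻¹ * (qExpansion 1 f).coeff n) F :=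
    hasQN_hat hN (fun τ => hasSum_qExpansion_Gamma0 f τ)
  have hK : killL k N N.primeFactors.toList F = 0 := by
    refine (hasQN_killL hN hQ _ fun p hp => ⟨(hLmem p hp).1.ne_zero, (hLmem p hp).2⟩).eq_zero ?_
    intro n
    split_ifs with hn
    · rfl
    · rw [h n, mul_zero]
      apply Nat.Coprime.symm
      rw [Nat.coprime_comm]
      apply Nat.coprime_of_dvd
      intro q hq hqn hqN
      exact hn ⟨q, by rw [Finset.mem_toList, Nat.mem_primeFactors]; exact ⟨hq, hqN, hN⟩, hqn⟩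
  obtain ⟨G, hG, hGsum⟩ := main_hat (k := k) N cuspSub_slash_stable _ hLnd hLmem F
    (mem_cuspSub.mpr hFcusp) hFinv hK
  have hd0 : ∀ p ∈ N.primeFactors, N / p ≠ 0 := by
    intro p hp
    rw [Nat.mem_primeFactors] at hp
    exact (Nat.div_pos (Nat.le_of_dvd (Nat.pos_of_ne_zero hN) hp.2.1) hp.1.pos).ne'
  have hGc : ∀ p ∈ N.primeFactors, IsCuspidal k (G p) := fun p hp =>
    mem_cuspSub.mp (hG p (Finset.mem_toList.mpr hp)).1
  have hGi : ∀ p ∈ N.primeFactors, SlInv k (GammaU (N / p)) (G p) := fun p hp =>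
    (hG p (Finset.mem_toList.mpr hp)).2
  let g : (p : ℕ) → CuspForm (Gamma0 (N / p)) k := fun p =>
    if hp : p ∈ N.primeFactors then
      cuspFormOfIsCuspidal (Gamma0 (N / p))
        (((N : ℂ) * ((((N / p : ℕ) : ℂ)) ^ (k - 1))⁻¹) • (G p ∣[k] heckeDiagMatrix (N / p)))
        (((hGc p hp).slash_heckeDiagMatrix (hd0 p hp)).smul _)
        ((slInv_unhat (hd0 p hp) (hGi p hp)).smul _)
    else 0
  have hg : ∀ p ∈ N.primeFactors, ∀ τ : ℍ, g p τ =
      ((N : ℂ) * ((((N / p : ℕ) : ℂ)) ^ (k - 1))⁻¹) *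
        (G p ∣[k] heckeDiagMatrix (N / p)) τ := by
    intro p hp τ
    simp only [g, dif_pos hp]
    rfl
  refine ⟨g, ?_⟩
  intro τ
  -- `f τ = N * F (N τ)`
  have h1 : f τ = (N : ℂ) * F (heckeDiagMatrix N • τ) := by
    rw [hF, slash_heckeMatrix_apply k hN 0, heckeMatrix_smul_heckeDiagMatrix_smul hN]
    have : (N : ℂ) ≠ 0 := by exact_mod_cast hN
    field_simp
  rw [h1, hGsum, Finset.sum_map_toList, Finset.sum_apply, Finset.mul_sum]
  refine Finset.sum_congr rfl fun p hp => ?_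
  have hpN : p * (N / p) = N := Nat.mul_div_cancel' (Nat.mem_primeFactors.mp hp).2.1
  have hp0 : p ≠ 0 := (Nat.mem_primeFactors.mp hp).1.ne_zero
  rw [hg p hp, slash_heckeDiagMatrix_apply k (hd0 p hp),
    heckeDiagMatrix_smul_smul (hd0 p hp) hp0 hN hpN]
  have hd' : (((N / p : ℕ) : ℂ)) ^ (k - 1) ≠ 0 :=
    zpow_ne_zero _ (by exact_mod_cast hd0 p hp)
  field_simp

end Fermat.Agent.Lib.Newform.H803
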