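import Fermat.Agent.Lib.Newform.H803.MainLemma
import Fermat.Agent.Lib.Newform.H443.SMOCore
import Fermat.Agent.Lib.Newform.H863.OldForms

/-!
# Multiplicity one for Prelude newforms (helper803)

Glue of the Atkin–Lehner main lemma (`H803.mainLemma`) with helper443's conditional strong
multiplicity one (`H443.IsNewform.eq_smul_of_mainLemma`) and helper863's degeneracy maps.

* `oldMap N p : S₂(Γ₀(N/p)) →ₗ S₂(Γ₀(N))`, `g ↦ g(p τ)`, for `p ∈ N.primeFactors`;
* `mem_oldSpace_of_coprime_coeff_eq_zero` : main lemma, submodule form;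
* `IsNewform.eq_smul_of_eigen` : the good eigenspace of a newform is the line `ℂ f`;
* `IsNewform.eq_of_eigenform` : a normalised eigenform of level `N` with the good eigenvalues of
  a newform `f` of level `N` equals `f`.
-/

set_option autoImplicit false

namespace Fermat.Agent.Lib.Newform.H803

open CongruenceSubgroup ModularFormClass UpperHalfPlane
open ModularForm (heckeDiagMatrix)
open Fermat.Agent.Lib.Newform.H863
open scoped MatrixGroups

/-- The old-space map `S₂(Γ₀(N/p)) → S₂(Γ₀(N))`, `g ↦ g(p τ)`. -/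
noncomputable def oldMap (N : ℕ) (p : N.primeFactors) :
    CuspForm (Gamma0 (N / (p : ℕ))) 2 →ₗ[ℂ] CuspForm (Gamma0 N) 2 :=
  haveI : NeZero (p : ℕ) := ⟨(Nat.prime_of_mem_primeFactors p.2).ne_zero⟩
  (levelIncl (dvd_of_eq (Nat.div_mul_cancel (Nat.dvd_of_mem_primeFactors p.2)))).comp
    (degen (p : ℕ))

theorem oldMap_apply (N : ℕ) (p : N.primeFactors) (g : CuspForm (Gamma0 (N / (p : ℕ))) 2)
    (τ : ℍ) : oldMap N p g τ = g (heckeDiagMatrix (p : ℕ) • τ) := by
  have : NeZero (p : ℕ) := ⟨(Nat.prime_of_mem_primeFactors p.2).ne_zero⟩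
  exact degen_apply (p : ℕ) g τ

theorem div_dvd_of_mem_primeFactors {N : ℕ} (p : N.primeFactors) : N / (p : ℕ) ∣ N :=
  Nat.div_dvd_of_dvd (Nat.dvd_of_mem_primeFactors p.2)

theorem div_ne_of_mem_primeFactors {N : ℕ} (p : N.primeFactors) : N / (p : ℕ) ≠ N := by
  have hp := Nat.prime_of_mem_primeFactors p.2
  have hpN := Nat.dvd_of_mem_primeFactors p.2
  have hN : 0 < N := Nat.pos_of_ne_zero (Nat.mem_primeFactors.mp p.2).2.2
  exact (Nat.div_lt_self hN hp.one_lt).ne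

/-- `oldMap` commutes with the good Hecke operators. -/
theorem oldMap_heckeTLin (N : ℕ) (p : N.primeFactors) (ℓ : ℕ) (hℓ : ℓ.Prime) (hℓN : ¬ ℓ ∣ N)
    (v : CuspForm (Gamma0 (N / (p : ℕ))) 2) :
    oldMap N p (CuspForm.heckeTLin 2 hℓ (fun hd => hℓN (hd.trans (div_dvd_of_mem_primeFactors p))) v) =
      CuspForm.heckeTLin 2 hℓ hℓN (oldMap N p v) := by
  have : NeZero (p : ℕ) := ⟨(Nat.prime_of_mem_primeFactors p.2).ne_zero⟩
  have hpN : N / (p : ℕ) * (p : ℕ) = N := Nat.div_mul_cancel (Nat.dvd_of_mem_primeFactors p.2)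
  have hℓ' : ¬ ℓ ∣ N / (p : ℕ) * (p : ℕ) := by rw [hpN]; exact hℓN
  show levelIncl (dvd_of_eq hpN) (degen (p : ℕ) _) =
    CuspForm.heckeTLin 2 hℓ hℓN (levelIncl (dvd_of_eq hpN) (degen (p : ℕ) v))
  rw [heckeTLin_levelIncl (dvd_of_eq hpN) hℓ hℓN, heckeTLin_degen hℓ hℓ']

theorem coe_sum_cuspForm {Γ : Subgroup (GL (Fin 2) ℝ)} {k : ℤ} {ι : Type*} (s : Finset ι)
    (F : ι → CuspForm Γ k) : (⇑(∑ i ∈ s, F i) : ℍ → ℂ) = ∑ i ∈ s, ⇑(F i) := by
  classical
  induction s using Finset.induction_on with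
  | empty => simp
  | insert a s ha ih => rw [Finset.sum_insert ha, Finset.sum_insert ha, FunLike.coe_add, ih]

/-- **Main lemma, submodule form.** -/
theorem mem_oldSpace_of_coprime_coeff_eq_zero (N : ℕ) [NeZero N] (h : CuspForm (Gamma0 N) 2)
    (h0 : ∀ n : ℕ, n.Coprime N → qCoeff h n = 0) :
    h ∈ ⨆ p : N.primeFactors, LinearMap.range (oldMap N p) := by
  obtain ⟨g, hg⟩ := mainLemma N 2 h h0
  have e : h = ∑ p : N.primeFactors, oldMap N p (g p) := by
    apply DFunLike.coe_injective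
    funext τ
    rw [hg τ, ← Finset.sum_coe_sort]
    rw [coe_sum_cuspForm, Finset.sum_apply]
    exact Finset.sum_congr rfl fun p _ => (oldMap_apply N p (g p) τ).symm
  rw [e]
  exact Submodule.sum_mem _ fun p _ =>
    Submodule.mem_iSup_of_mem p (LinearMap.mem_range_self _ _)

/-- **Multiplicity one.** The good eigenspace of a newform `f` of level `N` is the line `ℂ f`. -/
theorem IsNewform.eq_smul_of_eigen {N : ℕ} [NeZero N] {f : CuspForm (Gamma0 N) 2}
    (hf : CuspForm.IsNewform f) (g : CuspForm (Gamma0 N) 2)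
    (heig : ∀ (ℓ : ℕ) (hℓ : ℓ.Prime) (hℓN : ¬ ℓ ∣ N), CuspForm.heckeTLin 2 hℓ hℓN g = qCoeff f ℓ • g) :
    g = qCoeff g 1 • f :=
  Fermat.Agent.Lib.Newform.H443.IsNewform.eq_smul_of_mainLemma
    (fun p : N.primeFactors => N / (p : ℕ)) div_dvd_of_mem_primeFactors (oldMap N) hf
    div_ne_of_mem_primeFactors (oldMap_heckeTLin N)
    (mem_oldSpace_of_coprime_coeff_eq_zero N) g heig

/-- **Multiplicity one**, normalised form. -/
theorem IsNewform.eq_of_eigenform {N : ℕ} [NeZero N] {f : CuspForm (Gamma0 N) 2}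
    (hf : CuspForm.IsNewform f) {g : CuspForm (Gamma0 N) 2} (hg : CuspForm.IsNormalizedEigenform g)
    (hgf : ∀ ℓ : ℕ, ℓ.Prime → ¬ ℓ ∣ N → qCoeff g ℓ = qCoeff f ℓ) : g = f :=
  Fermat.Agent.Lib.Newform.H443.IsNewform.eq_of_mainLemma
    (fun p : N.primeFactors => N / (p : ℕ)) div_dvd_of_mem_primeFactors (oldMap N) hf
    div_ne_of_mem_primeFactors (oldMap_heckeTLin N)
    (mem_oldSpace_of_coprime_coeff_eq_zero N) hg hgf

end Fermat.Agent.Lib.Newform.H803
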