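import Fermat.Agent.Lib.Newform.H803.MultOne
import Fermat.Agent.Lib.Newform.H958.X.Spec

/-!
# Leaf `MULT-ONE` of NEWFORM block X (helper803)

Same-level multiplicity one for Prelude newforms, in the frozen form `H958.X.MultOne`.
-/

set_option autoImplicit false

namespace Fermat.Agent.Lib.Newform.H803

/-- **MULT-ONE** (unconditional). -/
theorem multOne : Fermat.Agent.Lib.Newform.H958.X.MultOne :=
  fun _ _ _ hf h heig => IsNewform.eq_smul_of_eigen hf h heig

end Fermat.Agent.Lib.Newform.H803
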